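/-
Block UR (owner helper248): base change from a "good base" `K₀ ⊆ ℚ̄` (in practice the inertia field
of `A`) to `ℚ̄`.  Definitions.

* `IsGood A K₀ ω`  : `∑ c_j ω_j ∈ A ↔ ∀ j, c_j ∈ A` for `c_j ∈ K₀` (an `A₀`-basis of `A ∩ K₁`).
* `GoodBase A K₀`  : every finite subset of `ℚ̄` lies in the `K₀`-span of a good family, and
                     `A ∩ K₀ → A / 𝔪_A` is surjective.
* `comb F₀ K₀ ω c` : `∑ ω_j · toBar (c_j)`, an element of `F_{ℚ̄}`, for `c_j ∈ F_{K₀}`.
-/
import Fermat.Agent.S18.Descent.HorizontalBC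
import Fermat.Agent.S18.Descent.DVR

set_option autoImplicit false

noncomputable section

namespace Fermat.Agent.Lib.UrBase

open ModularCurve Fermat.Agent.S18.Descent

local notation "Qbar" => AlgebraicClosure ℚ

variable (A : ValuationSubring Qbar) (K₀ : IntermediateField ℚ Qbar)

/-- A good family: integrality of a `K₀`-combination is detected on the coefficients. -/
def IsGood {e : ℕ} (ω : Fin e → Qbar) : Prop :=
  ∀ c : Fin e → K₀, ∑ j, (c j : Qbar) * ω j ∈ A ↔ ∀ j, (c j : Qbar) ∈ A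

/-- `K₀` is a good base for `A`. -/
structure GoodBase : Prop where
  good : ∀ S : Finset Qbar, ∃ (e : ℕ) (ω : Fin e → Qbar), IsGood A K₀ ω ∧
    ∀ s ∈ S, ∃ c : Fin e → K₀, s = ∑ j, (c j : Qbar) * ω j
  surj : ∀ a ∈ A, ∃ a₀ : K₀, a - (a₀ : Qbar) ∈ A.nonunits

variable (F₀ : IntermediateField ℚ (LaurentSeries ℚ))

/-- `∑ ω_j · toBar (c_j)`. -/
def comb {e : ℕ} (ω : Fin e → Qbar) (c : Fin e → laurentBaseChange K₀ F₀) :
    laurentBaseChange Qbar F₀ :=
  ∑ j, algebraMap Qbar (laurentBaseChange Qbar F₀) (ω j) * toBar F₀ K₀ (c j)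

end Fermat.Agent.Lib.UrBase

end
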