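/-
Block UR (owner helper248), nodes UR-0 and UR-3: elementary properties of good families,
coefficients of `comb`.
-/
import Fermat.Agent.Lib.UrBase.Defs

set_option autoImplicit false

noncomputable section

namespace Fermat.Agent.Lib.UrBase

open ModularCurve Fermat.Agent.S18.Descent

local notation "Qbar" => AlgebraicClosure ℚ

variable {A : ValuationSubring Qbar} {K₀ : IntermediateField ℚ Qbar}
variable {F₀ : IntermediateField ℚ (LaurentSeries ℚ)}
variable {e : ℕ} {ω : Fin e → Qbar}

/-! ### UR-0 -/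

theorem IsGood.mem (h : IsGood A K₀ ω) (j : Fin e) : ω j ∈ A := by
  classical
  have h1 := (h (fun i => if i = j then 1 else 0)).mpr (by
    intro i
    by_cases hi : i = j
    · simp [hi, A.one_mem]
    · simp [hi, A.zero_mem])
  have h2 : ∑ i, (((if i = j then 1 else 0 : K₀)) : Qbar) * ω i = ω j := by
    rw [Finset.sum_eq_single j]
    · simp
    · intro i _ hi
      simp [hi]
    · intro hj
      exact absurd (Finset.mem_univ j) hj
  rwa [h2] at h1

theorem IsGood.linearIndependent (h : IsGood A K₀ ω) (hμ : ∃ μ : K₀, (μ : Qbar) ∉ A) :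
    LinearIndependent K₀ ω := by
  obtain ⟨μ, hμ⟩ := hμ
  rw [Fintype.linearIndependent_iff]
  intro g hg j
  by_contra hj
  have h1 := (h (fun i => μ * (g j)⁻¹ * g i)).mp (by
    have : ∑ i, (((μ * (g j)⁻¹ * g i : K₀)) : Qbar) * ω i =
        ((μ * (g j)⁻¹ : K₀) : Qbar) * ∑ i, g i • ω i := by
      rw [Finset.mul_sum]
      refine Finset.sum_congr rfl fun i _ => ?_
      rw [IntermediateField.coe_mul, mul_assoc]
      rfl
    rw [this, hg, mul_zero]
    exact A.zero_mem) j
  apply hμ
  have h2 : μ * (g j)⁻¹ * g j = μ := by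
    rw [mul_assoc, inv_mul_cancel₀ hj, mul_one]
  rwa [h2] at h1

/-! ### UR-3 -/

theorem coeff_comb (ω : Fin e → Qbar) (c : Fin e → laurentBaseChange K₀ F₀) (k : ℤ) :
    ((comb K₀ F₀ ω c : laurentBaseChange Qbar F₀) : LaurentSeries Qbar).coeff k =
      ∑ j, ((((c j : laurentBaseChange K₀ F₀) : LaurentSeries K₀).coeff k : K₀) : Qbar) * ω j := by
  have h1 : ((comb K₀ F₀ ω c : laurentBaseChange Qbar F₀) : LaurentSeries Qbar) =
      ∑ j, algebraMap Qbar (LaurentSeries Qbar) (ω j) *
        coeffMap (algebraMap K₀ Qbar) ((c j : laurentBaseChange K₀ F₀) : LaurentSeries K₀) := by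
    rw [comb]
    exact map_sum (laurentBaseChange Qbar F₀).val _ _
  rw [h1, ← HahnSeries.coeff.addMonoidHom_apply, map_sum]
  refine Finset.sum_congr rfl fun j _ => ?_
  rw [HahnSeries.coeff.addMonoidHom_apply, algebraMap_laurentSeries_eq_single,
    HahnSeries.coeff_single_mul, sub_zero, mul_comm]
  rfl

theorem comb_injective (hω : LinearIndependent K₀ ω) :
    Function.Injective (comb K₀ F₀ ω) := by
  intro c c' h
  funext j
  apply Subtype.ext
  refine HahnSeries.ext (funext fun k => ?_)
  have h1 := coeff_comb (F₀ := F₀) ω c k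
  have h2 := coeff_comb (F₀ := F₀) ω c' k
  rw [h] at h1
  rw [h1] at h2
  have h3 : ∑ j, ((((c j : laurentBaseChange K₀ F₀) : LaurentSeries K₀).coeff k -
      ((c' j : laurentBaseChange K₀ F₀) : LaurentSeries K₀).coeff k : K₀)) • ω j = 0 := by
    have : ∀ j, ((((c j : laurentBaseChange K₀ F₀) : LaurentSeries K₀).coeff k -
      ((c' j : laurentBaseChange K₀ F₀) : LaurentSeries K₀).coeff k : K₀)) • ω j =
        ((((c j : laurentBaseChange K₀ F₀) : LaurentSeries K₀).coeff k : K₀) : Qbar) * ω j -
        ((((c' j : laurentBaseChange K₀ F₀) : LaurentSeries K₀).coeff k : K₀) : Qbar) * ω j := by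
      intro j
      rw [← sub_mul]
      rfl
    rw [Finset.sum_congr rfl fun j _ => this j, Finset.sum_sub_distrib, h2, sub_self]
  exact sub_eq_zero.mp (Fintype.linearIndependent_iff.mp hω _ h3 j)

theorem coeff_comb_mem_iff (h : IsGood A K₀ ω) (c : Fin e → laurentBaseChange K₀ F₀) :
    (∀ k, ((comb K₀ F₀ ω c : laurentBaseChange Qbar F₀) : LaurentSeries Qbar).coeff k ∈ A) ↔
      ∀ j k, ((((c j : laurentBaseChange K₀ F₀) : LaurentSeries K₀).coeff k : K₀) : Qbar) ∈ A := by
  constructor
  · intro H j k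
    have := H k
    rw [coeff_comb] at this
    exact (h _).mp this j
  · intro H k
    rw [coeff_comb]
    exact (h _).mpr fun j => H j k

end Fermat.Agent.Lib.UrBase

end
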