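/-
Block UR (architect helper248), node UR-5a (owner helper256): `toBar` respects Gauss rings and
reductions; `rho` of a combination.
-/
import Fermat.Agent.Lib.UrBase.Good
import Fermat.Agent.S34.Nodal.Inst.Defs

set_option autoImplicit false

noncomputable section

namespace Fermat.Agent.Lib.UrBase

open ModularCurve Fermat.Agent.S18.Descent Fermat.Agent.S18.Vert Fermat.Agent.S34.Nodal.Inst

local notation "Qbar" => AlgebraicClosure ℚ

variable {A : ValuationSubring Qbar} {K₀ : IntermediateField ℚ Qbar}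
variable {F₀ : IntermediateField ℚ (LaurentSeries ℚ)}
variable {e : ℕ} {ω : Fin e → Qbar}

theorem gaussBasic_inc (P : LaurentSeries (restrict A K₀)) :
    inc A (coeffMap (restrictHom A K₀) P) =
      coeffMap (algebraMap K₀ Qbar) (inc (restrict A K₀) P) := by
  show coeffMap A.subtype (coeffMap (restrictHom A K₀) P) =
    coeffMap (algebraMap K₀ Qbar) (coeffMap (restrict A K₀).subtype P)
  rw [coeffMap_coeffMap, coeffMap_coeffMap, subtype_comp_restrictHom]

theorem gaussBasic_red (P : LaurentSeries (restrict A K₀)) :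
    red A (coeffMap (restrictHom A K₀) P) =
      coeffMap (residueMap A K₀) (red (restrict A K₀) P) := by
  show coeffMap (IsLocalRing.residue A) (coeffMap (restrictHom A K₀) P) =
    coeffMap (residueMap A K₀) (coeffMap (IsLocalRing.residue (restrict A K₀)) P)
  rw [coeffMap_coeffMap, coeffMap_coeffMap, residueMap_comp_residue]

theorem gaussBasic_red_ne_zero {Q : LaurentSeries (restrict A K₀)}
    (hQ : red (restrict A K₀) Q ≠ 0) : red A (coeffMap (restrictHom A K₀) Q) ≠ 0 := by
  rw [gaussBasic_red]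
  intro h
  apply hQ
  apply Fermat.Agent.S18.Descent.coeffMap_injective _ (residueMap_injective A K₀)
  rw [h, map_zero]

theorem gaussBasic_rel {y : laurentBaseChange K₀ F₀} {P Q : LaurentSeries (restrict A K₀)}
    (h : (y : LaurentSeries K₀) * inc (restrict A K₀) Q = inc (restrict A K₀) P) :
    ((toBar F₀ K₀ y : laurentBaseChange Qbar F₀) : LaurentSeries Qbar) *
      inc A (coeffMap (restrictHom A K₀) Q) = inc A (coeffMap (restrictHom A K₀) P) := by
  rw [gaussBasic_inc, gaussBasic_inc, coe_baseChangeMap, ← map_mul, h]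

theorem toBar_mem_gauss {y : laurentBaseChange K₀ F₀}
    (hy : y ∈ gaussSubring (restrict A K₀) (laurentBaseChange K₀ F₀)) :
    toBar F₀ K₀ y ∈ gaussSubring A (laurentBaseChange Qbar F₀) := by
  obtain ⟨P, Q, hP, hQ, hQ0, h⟩ := hy
  refine ⟨coeffMap (restrictHom A K₀) P, coeffMap (restrictHom A K₀) Q, ?_, ?_,
    gaussBasic_red_ne_zero hQ0, gaussBasic_rel h⟩
  · rw [gaussBasic_inc]
    exact coeffMap_mem_laurentBaseChange' _ hP
  · rw [gaussBasic_inc]
    exact coeffMap_mem_laurentBaseChange' _ hQ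

theorem rho_toBar (y : gaussSubring (restrict A K₀) (laurentBaseChange K₀ F₀)) :
    rho A (laurentBaseChange Qbar F₀) ⟨toBar F₀ K₀ y, toBar_mem_gauss y.2⟩ =
      coeffMap (residueMap A K₀) (rho (restrict A K₀) (laurentBaseChange K₀ F₀) y) := by
  obtain ⟨P, Q, hP, hQ, hQ0, h⟩ := y.2
  have h1 := rho_spec y hQ0 h
  have h2 := rho_spec (A := A) (F := laurentBaseChange Qbar F₀)
    ⟨toBar F₀ K₀ y, toBar_mem_gauss y.2⟩ (gaussBasic_red_ne_zero hQ0) (gaussBasic_rel h)
  apply mul_right_cancel₀ (gaussBasic_red_ne_zero (A := A) hQ0)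
  rw [h2, gaussBasic_red, gaussBasic_red, ← h1, map_mul]

theorem rho_comb (h : IsGood A K₀ ω) (c : Fin e → laurentBaseChange K₀ F₀)
    (hc : ∀ j, c j ∈ gaussSubring (restrict A K₀) (laurentBaseChange K₀ F₀))
    (hmem : comb K₀ F₀ ω c ∈ gaussSubring A (laurentBaseChange Qbar F₀)) :
    rho A (laurentBaseChange Qbar F₀) ⟨comb K₀ F₀ ω c, hmem⟩ =
      ∑ j, algebraMap (kk A) (LaurentSeries (kk A)) (IsLocalRing.residue A ⟨ω j, h.mem j⟩) *
        coeffMap (residueMap A K₀) (rho (restrict A K₀) (laurentBaseChange K₀ F₀) ⟨c j, hc j⟩) := by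
  have e1 : (⟨comb K₀ F₀ ω c, hmem⟩ : gaussSubring A (laurentBaseChange Qbar F₀)) =
      ∑ j, (⟨algebraMap Qbar (laurentBaseChange Qbar F₀) (ω j),
          algebraMap_mem_gauss A (laurentBaseChange Qbar F₀) ⟨ω j, h.mem j⟩⟩ :
            gaussSubring A (laurentBaseChange Qbar F₀)) *
        ⟨toBar F₀ K₀ (c j), toBar_mem_gauss (hc j)⟩ := by
    apply Subtype.ext
    rw [AddSubmonoidClass.coe_finsetSum]
    rfl
  rw [e1, map_sum]
  refine Finset.sum_congr rfl fun j _ => ?_
  rw [map_mul, rho_toBar ⟨c j, hc j⟩]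
  congr 1
  exact rho_algebraMap A (laurentBaseChange Qbar F₀) ⟨ω j, h.mem j⟩

end Fermat.Agent.Lib.UrBase

end
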