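/-
Block UR (architect helper248), node UR-4 (owner of this file: helper247).
The Gauss lemma for series over the (non discrete) valuation ring `A` of `ℚ̄`.
-/
import Fermat.Agent.Lib.UrBase.Good
import Fermat.Agent.S18.Vert.IntSeries
import Fermat.Agent.GAL.E.Discrete
import Fermat.Agent.S18.Descent.Union

set_option autoImplicit false

noncomputable section

namespace Fermat.Agent.Lib.UrBase

open ModularCurve Fermat.Agent.S18.Descent Fermat.Agent.S18.Vert

local notation "Qbar" => AlgebraicClosure ℚ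

variable {A : ValuationSubring Qbar}
variable {F₀ : IntermediateField ℚ (LaurentSeries ℚ)}

/-! ### UR-4  `GaussLemma.lean` : the Gauss lemma over the (non discrete) ring `A` -/

theorem gauss_lemma {q : ℕ} (hq : q.Prime) (hA : A.LiesOverPrime q)
    (Z : laurentBaseChange Qbar F₀) (hZ : ∀ k, (Z : LaurentSeries Qbar).coeff k ∈ A)
    (Q : LaurentSeries A) (hQ : red A Q ≠ 0) (a : Qbar)
    (h : ∀ k, ∃ b ∈ A, ((Z : LaurentSeries Qbar) * inc A Q).coeff k = a * b) :
    ∀ k, ∃ b ∈ A, (Z : LaurentSeries Qbar).coeff k = a * b := by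
  classical
  by_cases hall : ∀ k, (Z : LaurentSeries Qbar).coeff k = 0
  · intro k
    exact ⟨0, zero_mem A, by rw [hall k, mul_zero]⟩
  push Not at hall
  obtain ⟨k₁, hk₁⟩ := hall
  have halg : Algebra.IsAlgebraic ℚ Qbar := AlgebraicClosure.isAlgebraic ℚ
  obtain ⟨L, hLfin, z0, -, hz0Z⟩ := exists_definedOver (F₀ := F₀) Z.2
  have hcoeffL : ∀ k, (Z : LaurentSeries Qbar).coeff k ∈ L := by
    intro k
    rw [← hz0Z]
    exact (z0.coeff k).2
  obtain ⟨s₀, ⟨k₀, hk₀⟩, hs₀, hdiv⟩ := Fermat.Agent.GAL.E.exists_max_of_bounded A q hq hA L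
    (Set.range (Z : LaurentSeries Qbar).coeff) (by rintro _ ⟨k, rfl⟩; exact hcoeffL k)
    ⟨_, ⟨k₁, rfl⟩, hk₁⟩ 1 one_ne_zero (by rintro _ ⟨k, rfl⟩; rw [one_mul]; exact hZ k)
  have hmem : ∀ n, (algebraMap Qbar (LaurentSeries Qbar) s₀⁻¹ *
      (Z : LaurentSeries Qbar)).coeff n ∈ A := by
    intro n
    rw [coeff_algebraMap_mul, mul_comm, ← div_eq_mul_inv]
    exact hdiv _ ⟨n, rfl⟩
  set Z' : LaurentSeries A := liftS A _ hmem with hZ'
  have hZ'coeff : ∀ n, ((Z'.coeff n : A) : Qbar) = s₀⁻¹ * (Z : LaurentSeries Qbar).coeff n := by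
    intro n
    rw [← coeff_algebraMap_mul]
    rfl
  have hZ'red : red A Z' ≠ 0 := by
    intro h0
    have h1 : IsLocalRing.residue A (Z'.coeff k₀) = 0 := by
      rw [← red_coeff, h0, HahnSeries.coeff_zero]
    have h2 : Z'.coeff k₀ = 1 := by
      apply Subtype.ext
      rw [hZ'coeff, hk₀, inv_mul_cancel₀ hs₀]
      rfl
    rw [h2, map_one] at h1
    exact one_ne_zero h1
  have hprod : red A (Z' * Q) ≠ 0 := by
    rw [map_mul]
    exact mul_ne_zero hZ'red hQ
  obtain ⟨n, hn⟩ : ∃ n, (red A (Z' * Q)).coeff n ≠ 0 := by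
    by_contra hcon
    push Not at hcon
    exact hprod (HahnSeries.ext (funext hcon))
  have hu : IsUnit ((Z' * Q).coeff n) := by
    rw [red_coeff] at hn
    by_contra hnu
    exact hn ((IsLocalRing.residue_eq_zero_iff _).mpr ((IsLocalRing.mem_maximalIdeal _).mpr hnu))
  have h1 : ((Z : LaurentSeries Qbar) * inc A Q).coeff n =
      s₀ * (((Z' * Q).coeff n : A) : Qbar) := by
    have h2 : inc A (Z' * Q) = algebraMap Qbar (LaurentSeries Qbar) s₀⁻¹ *
        ((Z : LaurentSeries Qbar) * inc A Q) := by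
      rw [map_mul, hZ', inc_liftS, mul_assoc]
    have h3 := congrArg (fun x => HahnSeries.coeff x n) h2
    simp only [inc_coeff] at h3
    rw [coeff_algebraMap_mul] at h3
    rw [h3, mul_inv_cancel_left₀ hs₀]
  obtain ⟨b, hb, hab⟩ := h n
  obtain ⟨u, hu'⟩ := hu
  have huu : ((u : A) : Qbar) * (((u⁻¹ : Aˣ) : A) : Qbar) = 1 := by
    have h4 : ((u : A) * ((u⁻¹ : Aˣ) : A) : A) = 1 := u.mul_inv
    exact congrArg Subtype.val h4
  have hs₀a : s₀ = a * (b * (((u⁻¹ : Aˣ) : A) : Qbar)) := by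
    rw [← mul_assoc, ← hab, h1, ← hu', mul_assoc, huu, mul_one]
  intro k
  refine ⟨b * (((u⁻¹ : Aˣ) : A) : Qbar) * ((Z'.coeff k : A) : Qbar),
    mul_mem (mul_mem hb (SetLike.coe_mem _)) (SetLike.coe_mem _), ?_⟩
  rw [← mul_assoc, ← hs₀a, hZ'coeff, mul_inv_cancel_left₀ hs₀]

end Fermat.Agent.Lib.UrBase

end
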