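/-
Block UR (owner helper248), node UR-2: `F_{ℚ̄}` is the `ℚ̄`-span of `F_{K₀}`; simultaneous
decomposition of finitely many elements along a good family.   (helper187)
-/
import Fermat.Agent.Lib.UrBase.Good

set_option autoImplicit false

noncomputable section

namespace Fermat.Agent.Lib.UrBase

open ModularCurve Fermat.Agent.S18.Descent

local notation "Qbar" => AlgebraicClosure ℚ

variable {A : ValuationSubring Qbar} {K₀ : IntermediateField ℚ Qbar}
variable {F₀ : IntermediateField ℚ (LaurentSeries ℚ)}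
variable {e : ℕ} {ω : Fin e → Qbar}

/-- the constants of `ℚ̄` are integral over `F_{K₀}`. -/
theorem Span.isIntegralElem_const (K₀ : IntermediateField ℚ Qbar) (a : Qbar) :
    (toBar F₀ K₀).IsIntegralElem (algebraMap Qbar (laurentBaseChange Qbar F₀) a) := by
  obtain ⟨p, hp, hpe⟩ := Algebra.IsIntegral.isIntegral (R := K₀) a
  refine ⟨p.map (algebraMap K₀ (laurentBaseChange K₀ F₀)), hp.map _, ?_⟩
  have h : (toBar F₀ K₀).comp (algebraMap K₀ (laurentBaseChange K₀ F₀)) =
      (algebraMap Qbar (laurentBaseChange Qbar F₀)).comp (algebraMap K₀ Qbar) :=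
    RingHom.ext (toBar_algebraMap F₀ K₀)
  rw [Polynomial.eval₂_map, h, ← Polynomial.hom_eval₂, hpe, map_zero]

theorem exists_sum_toBar (K₀ : IntermediateField ℚ Qbar) (y : laurentBaseChange Qbar F₀) :
    ∃ (n : ℕ) (a : Fin n → Qbar) (z : Fin n → laurentBaseChange K₀ F₀),
      y = ∑ i, algebraMap Qbar (laurentBaseChange Qbar F₀) (a i) * toBar F₀ K₀ (z i) := by
  let _ : Algebra (laurentBaseChange K₀ F₀) (laurentBaseChange Qbar F₀) := (toBar F₀ K₀).toAlgebra
  have halg : ∀ x ∈ Set.range (algebraMap Qbar (laurentBaseChange Qbar F₀)),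
      IsAlgebraic (laurentBaseChange K₀ F₀) x := by
    rintro _ ⟨a, rfl⟩
    have h : IsIntegral (laurentBaseChange K₀ F₀)
      (algebraMap Qbar (laurentBaseChange Qbar F₀) a) := Span.isIntegralElem_const K₀ a
    exact h.isAlgebraic
  -- the field generated by `F_{K₀}` and the constants is everything
  have htop : ∀ y : laurentBaseChange Qbar F₀, y ∈ IntermediateField.adjoin
      (laurentBaseChange K₀ F₀) (Set.range (algebraMap Qbar (laurentBaseChange Qbar F₀))) := by
    intro y
    have hy := y.2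
    rw [mem_laurentBaseChange_iff] at hy
    have hle : Subfield.closure (Set.range (algebraMap Qbar (LaurentSeries Qbar)) ∪
        (⇑(coeffEmb Qbar) '' (F₀ : Set (LaurentSeries ℚ)))) ≤
        (IntermediateField.adjoin (laurentBaseChange K₀ F₀)
          (Set.range (algebraMap Qbar (laurentBaseChange Qbar F₀)))).toSubfield.map
          (laurentBaseChange Qbar F₀).val.toRingHom := by
      rw [Subfield.closure_le]
      rintro _ (⟨a, rfl⟩ | ⟨z, hz, rfl⟩)
      · exact ⟨algebraMap Qbar (laurentBaseChange Qbar F₀) a,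
          IntermediateField.subset_adjoin _ _ ⟨a, rfl⟩, rfl⟩
      · exact ⟨toBar F₀ K₀ ⟨coeffEmb K₀ z, coeffEmb_mem_laurentBaseChange K₀ hz⟩,
          IntermediateField.algebraMap_mem _ _, coeffMap_coeffEmb' _ z⟩
    obtain ⟨m, hm, hmy⟩ := hle hy
    have hmy' : m = y := Subtype.ext hmy
    exact hmy' ▸ hm
  have h1 : y ∈ Subalgebra.toSubmodule (Algebra.adjoin (laurentBaseChange K₀ F₀)
      (Set.range (algebraMap Qbar (laurentBaseChange Qbar F₀)))) := by
    rw [Subalgebra.mem_toSubmodule, ← IntermediateField.adjoin_toSubalgebra_of_isAlgebraic halg]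
    exact htop y
  have hcl : (Submonoid.closure (Set.range (algebraMap Qbar (laurentBaseChange Qbar F₀))) :
      Set (laurentBaseChange Qbar F₀)) = Set.range (algebraMap Qbar (laurentBaseChange Qbar F₀)) := by
    have h2 : Set.range (algebraMap Qbar (laurentBaseChange Qbar F₀)) =
        ((MonoidHom.mrange ((algebraMap Qbar (laurentBaseChange Qbar F₀) :
          Qbar →* laurentBaseChange Qbar F₀)) : Submonoid (laurentBaseChange Qbar F₀)) :
          Set (laurentBaseChange Qbar F₀)) := rfl
    rw [h2, Submonoid.closure_eq]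
  rw [Algebra.adjoin_eq_span, hcl, Finsupp.mem_span_range_iff_exists_finsupp] at h1
  obtain ⟨c, hc⟩ := h1
  refine ⟨c.support.card, fun i => (c.support.equivFin.symm i : Qbar),
    fun i => c (c.support.equivFin.symm i : Qbar), ?_⟩
  rw [← hc, Finsupp.sum, ← Finset.sum_coe_sort, ← Equiv.sum_comp c.support.equivFin.symm]
  refine Finset.sum_congr rfl fun i _ => ?_
  rw [Algebra.smul_def, mul_comm]
  rfl

theorem exists_comb (h : GoodBase A K₀) (S : Finset (laurentBaseChange Qbar F₀)) :
    ∃ (e : ℕ) (ω : Fin e → Qbar), IsGood A K₀ ω ∧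
      ∀ y ∈ S, ∃ c : Fin e → laurentBaseChange K₀ F₀, y = comb K₀ F₀ ω c := by
  classical
  choose n a z hy using fun y : laurentBaseChange Qbar F₀ => exists_sum_toBar K₀ y
  obtain ⟨e, ω, hω, hS⟩ := h.good (S.biUnion fun y => Finset.univ.image (a y))
  refine ⟨e, ω, hω, fun y hyS => ?_⟩
  have hc : ∀ i : Fin (n y), ∃ c : Fin e → K₀, a y i = ∑ j, (c j : Qbar) * ω j := fun i =>
    hS _ (Finset.mem_biUnion.2 ⟨y, hyS, Finset.mem_image_of_mem _ (Finset.mem_univ i)⟩)
  choose c hc using hc
  refine ⟨fun j => ∑ i, algebraMap K₀ (laurentBaseChange K₀ F₀) (c i j) * z y i, ?_⟩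
  conv_lhs => rw [hy y]
  unfold comb
  simp only [map_sum, map_mul, toBar_algebraMap, Finset.mul_sum]
  rw [Finset.sum_comm]
  refine Finset.sum_congr rfl fun i _ => ?_
  conv_lhs => rw [hc i]
  rw [map_sum, Finset.sum_mul]
  refine Finset.sum_congr rfl fun j _ => ?_
  rw [map_mul]
  have e1 : algebraMap K₀ Qbar (c i j) = ((c i j : K₀) : Qbar) := rfl
  rw [e1]
  ring

end Fermat.Agent.Lib.UrBase

end
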