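/-
Block UR (owner helper248), node UR-5b: a combination along a good family is Gauss-integral iff all
its components are; the Gauss rings of `F_{ℚ̄}` and `F_{K₀}` have the same residue field.
Statements: helper248; proofs: helper145.
-/
import Fermat.Agent.Lib.UrBase.Good
import Fermat.Agent.Lib.UrBase.GaussBasic
import Fermat.Agent.Lib.UrBase.Span
import Fermat.Agent.Lib.UrBase.GaussLemma
import Fermat.Agent.S34.Nodal.Inst.Defs

set_option autoImplicit false

noncomputable section

namespace Fermat.Agent.Lib.UrBase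

open ModularCurve Fermat.Agent.S18.Descent Fermat.Agent.S18.Vert Fermat.Agent.S34.Nodal.Inst

local notation "Qbar" => AlgebraicClosure ℚ

variable {A : ValuationSubring Qbar} {K₀ : IntermediateField ℚ Qbar}
variable {F₀ : IntermediateField ℚ (LaurentSeries ℚ)}
variable {e : ℕ} {ω : Fin e → Qbar}

/-! ### auxiliary lemmas -/

namespace GaussAux

theorem comb_mul (ω : Fin e → Qbar) (a : laurentBaseChange K₀ F₀)
    (c : Fin e → laurentBaseChange K₀ F₀) :
    comb K₀ F₀ ω (fun j => a * c j) = toBar F₀ K₀ a * comb K₀ F₀ ω c := by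
  unfold comb
  rw [Finset.mul_sum]
  refine Finset.sum_congr rfl fun j _ => ?_
  rw [map_mul]
  ring

/-- a common denominator for finitely many elements of a Gauss ring -/
theorem exists_common_denom {K : Type*} [Field K] (A : ValuationSubring K)
    (F : IntermediateField K (LaurentSeries K)) (z : Fin e → F)
    (hz : ∀ j, z j ∈ gaussSubring A F) :
    ∃ (Q0 : LaurentSeries A) (P : Fin e → LaurentSeries A), inc A Q0 ∈ F ∧ red A Q0 ≠ 0 ∧
      ∀ j, inc A (P j) ∈ F ∧ (z j : LaurentSeries K) * inc A Q0 = inc A (P j) := by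
  classical
  choose P Q hP hQ hQ0 h using hz
  refine ⟨∏ i, Q i, fun j => P j * ∏ i ∈ Finset.univ.erase j, Q i, ?_, ?_, fun j => ⟨?_, ?_⟩⟩
  · rw [map_prod]
    exact prod_mem fun i _ => hQ i
  · rw [map_prod]
    exact Finset.prod_ne_zero_iff.mpr fun i _ => hQ0 i
  · rw [map_mul, map_prod]
    exact mul_mem (hP j) (prod_mem fun i _ => hQ i)
  · rw [← Finset.mul_prod_erase Finset.univ Q (Finset.mem_univ j), map_mul, map_mul, ← mul_assoc,
      h j]

/-- the inclusion `A₀((t)) → A((t))` -/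
def up (A : ValuationSubring Qbar) (K₀ : IntermediateField ℚ Qbar) :
    LaurentSeries (restrict A K₀) →+* LaurentSeries A := coeffMap (restrictHom A K₀)

theorem coeffMap_inc (P : LaurentSeries (restrict A K₀)) :
    coeffMap (algebraMap K₀ Qbar) (inc (restrict A K₀) P) = inc A (up A K₀ P) := by
  ext k
  rfl

/-- KEY (IND) -/
theorem ind [IsDiscreteValuationRing (restrict A K₀)] {π : restrict A K₀} (hπ : Irreducible π)
    {q : ℕ} (hq : q.Prime) (hA : A.LiesOverPrime q) (h : IsGood A K₀ ω)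
    (z : Fin e → laurentBaseChange K₀ F₀)
    (hz : ∀ j, z j ∈ gaussSubring (restrict A K₀) (laurentBaseChange K₀ F₀))
    (y' : laurentBaseChange Qbar F₀) (hy' : y' ∈ gaussSubring A (laurentBaseChange Qbar F₀))
    (hy : comb K₀ F₀ ω z = algebraMap Qbar (laurentBaseChange Qbar F₀) ((π : K₀) : Qbar) * y') :
    ∀ j, (algebraMap K₀ (laurentBaseChange K₀ F₀) (π : K₀))⁻¹ * z j ∈
      gaussSubring (restrict A K₀) (laurentBaseChange K₀ F₀) := by
  obtain ⟨Q0, P, hQ0F, hQ0, hP⟩ := exists_common_denom _ _ z hz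
  obtain ⟨Py, Qy, -, -, hQy0, hyeq⟩ := hy'
  have hπ0 : (π : K₀) ≠ 0 := fun h0 => hπ.ne_zero (Subtype.ext h0)
  have hπ0' : ((π : K₀) : Qbar) ≠ 0 := fun h0 => hπ0 (Subtype.ext h0)
  let Zc : Fin e → laurentBaseChange K₀ F₀ := fun j => ⟨inc (restrict A K₀) (P j), (hP j).1⟩
  have hZc : Zc = fun j => (⟨inc (restrict A K₀) Q0, hQ0F⟩ : laurentBaseChange K₀ F₀) * z j := by
    funext j
    apply Subtype.ext
    change inc (restrict A K₀) (P j) = inc (restrict A K₀) Q0 * (z j : LaurentSeries K₀)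
    rw [← (hP j).2, mul_comm]
  have hZA : ∀ k, ((comb K₀ F₀ ω Zc : laurentBaseChange Qbar F₀) : LaurentSeries Qbar).coeff k ∈ A :=
    (coeff_comb_mem_iff h Zc).mpr fun j k => ((P j).coeff k).2
  have hprod : ((comb K₀ F₀ ω Zc : laurentBaseChange Qbar F₀) : LaurentSeries Qbar) * inc A Qy =
      algebraMap Qbar (LaurentSeries Qbar) ((π : K₀) : Qbar) * inc A (Py * up A K₀ Q0) := by
    rw [hZc, comb_mul, hy, map_mul, ← hyeq, ← coeffMap_inc]
    change (coeffMap (algebraMap K₀ Qbar) (inc (restrict A K₀) Q0) *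
      (algebraMap Qbar (LaurentSeries Qbar) ((π : K₀) : Qbar) * (y' : LaurentSeries Qbar))) * _ = _
    ring
  have hg := gauss_lemma hq hA (comb K₀ F₀ ω Zc) hZA Qy hQy0 ((π : K₀) : Qbar) (fun k =>
    ⟨_, ((Py * up A K₀ Q0).coeff k).2, by rw [hprod, coeff_algebraMap_mul, inc_coeff]⟩)
  have hdvd : ∀ j k, π ∣ (P j).coeff k := by
    intro j k
    obtain ⟨b, hb, hbk⟩ := hg k
    rw [coeff_comb] at hbk
    have h1 := (h (fun i => ((P i).coeff k : K₀) / (π : K₀))).mp (by
      have h2 : ∑ i, ((((P i).coeff k : K₀) / (π : K₀) : K₀) : Qbar) * ω i = b := by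
        apply mul_left_cancel₀ hπ0'
        rw [← hbk, Finset.mul_sum]
        refine Finset.sum_congr rfl fun i _ => ?_
        rw [← mul_assoc]
        congr 1
        change ((π : K₀) : Qbar) * ((((P i).coeff k : K₀) / (π : K₀) : K₀) : Qbar) =
          (((P i).coeff k : K₀) : Qbar)
        rw [← IntermediateField.coe_mul, mul_div_cancel₀ _ hπ0]
      rw [h2]
      exact hb) j
    refine ⟨⟨((P j).coeff k : K₀) / (π : K₀), h1⟩, ?_⟩
    apply Subtype.ext
    change ((P j).coeff k : K₀) = (π : K₀) * (((P j).coeff k : K₀) / (π : K₀))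
    rw [mul_div_cancel₀ _ hπ0]
  intro j
  have hred : red (restrict A K₀) (P j) = 0 := by
    ext k
    rw [red_coeff, HahnSeries.coeff_zero, residue_eq_zero_iff_dvd hπ]
    exact hdvd j k
  obtain ⟨P', hP'⟩ := (red_eq_zero_iff hπ (P j)).mp hred
  have hP'F : inc (restrict A K₀) P' ∈ laurentBaseChange K₀ F₀ := by
    apply inc_mem_of_pow_mul hπ (m := 1)
    rw [pow_one, ← hP']
    exact (hP j).1
  refine ⟨P', Q0, hP'F, hQ0F, hQ0, ?_⟩
  have hc0 : algebraMap K₀ (LaurentSeries K₀) (π : K₀) ≠ 0 := by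
    rw [Ne, map_eq_zero]
    exact hπ0
  apply mul_left_cancel₀ hc0
  have h3 := (hP j).2
  rw [hP', map_mul, inc_C] at h3
  rw [← h3]
  change algebraMap K₀ (LaurentSeries K₀) (π : K₀) *
    (((algebraMap K₀ (LaurentSeries K₀) (π : K₀))⁻¹ * (z j : LaurentSeries K₀)) * _) = _
  rw [← mul_assoc, mul_inv_cancel_left₀ hc0]

/-- a power of the uniformiser clears the denominator -/
theorem exists_pow_mul_mem [IsDiscreteValuationRing (restrict A K₀)]
    (hquot : IsQuot (restrict A K₀) (laurentBaseChange K₀ F₀)) {π : restrict A K₀}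
    (hπ : Irreducible π) (f : laurentBaseChange K₀ F₀) :
    ∃ b : ℕ, (algebraMap K₀ (laurentBaseChange K₀ F₀) (π : K₀)) ^ b * f ∈
      gaussSubring (restrict A K₀) (laurentBaseChange K₀ F₀) := by
  by_cases hf : f = 0
  · exact ⟨0, by rw [hf, mul_zero]; exact Subring.zero_mem _⟩
  obtain ⟨a, b, P, Q, hP, hQ, -, hQ0, h⟩ := hquot.exists_normal hπ f hf
  refine ⟨b, HahnSeries.C π ^ a * P, Q, ?_, hQ, hQ0, ?_⟩
  · rw [map_mul, map_pow]
    exact mul_mem (pow_mem (inc_C_mem π) a) hP
  · rw [map_mul, map_pow, ← h, inc_C]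
    change ((algebraMap K₀ (LaurentSeries K₀) (π : K₀)) ^ b * (f : LaurentSeries K₀)) * _ = _
    ring

theorem unif_mem (π : restrict A K₀) :
    algebraMap K₀ (laurentBaseChange K₀ F₀) (π : K₀) ∈
      gaussSubring (restrict A K₀) (laurentBaseChange K₀ F₀) :=
  algebraMap_mem_gauss (restrict A K₀) (laurentBaseChange K₀ F₀) π

end GaussAux

open GaussAux

theorem comb_mem_gauss_iff [IsDiscreteValuationRing (restrict A K₀)]
    (hquot : IsQuot (restrict A K₀) (laurentBaseChange K₀ F₀))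
    {q : ℕ} (hq : q.Prime) (hA : A.LiesOverPrime q) (h : IsGood A K₀ ω)
    (c : Fin e → laurentBaseChange K₀ F₀) :
    comb K₀ F₀ ω c ∈ gaussSubring A (laurentBaseChange Qbar F₀) ↔
      ∀ j, c j ∈ gaussSubring (restrict A K₀) (laurentBaseChange K₀ F₀) := by
  constructor
  · intro hmem
    obtain ⟨π, hπ⟩ := IsDiscreteValuationRing.exists_irreducible (restrict A K₀)
    have hπ0 : algebraMap K₀ (laurentBaseChange K₀ F₀) (π : K₀) ≠ 0 := by
      rw [Ne, map_eq_zero]
      exact fun h0 => hπ.ne_zero (Subtype.ext h0)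
    have key : ∀ m : ℕ, (∀ j, (algebraMap K₀ (laurentBaseChange K₀ F₀) (π : K₀)) ^ m * c j ∈
        gaussSubring (restrict A K₀) (laurentBaseChange K₀ F₀)) →
        ∀ j, c j ∈ gaussSubring (restrict A K₀) (laurentBaseChange K₀ F₀) := by
      intro m
      induction m with
      | zero =>
        intro H j
        simpa using H j
      | succ m ih =>
        intro H
        apply ih
        intro j
        have h1 := ind hπ hq hA h _ H
          ((algebraMap Qbar (laurentBaseChange Qbar F₀) ((π : K₀) : Qbar)) ^ m * comb K₀ F₀ ω c)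
          (mul_mem (pow_mem (algebraMap_mem_gauss A (laurentBaseChange Qbar F₀)
            ⟨((π : K₀) : Qbar), π.2⟩) m) hmem)
          (by
            have e0 : algebraMap K₀ Qbar (π : K₀) = ((π : K₀) : Qbar) := rfl
            rw [comb_mul, map_pow, toBar_algebraMap, pow_succ, e0]
            ring) j
        rwa [pow_succ, mul_assoc, mul_comm _ (algebraMap K₀ (laurentBaseChange K₀ F₀) (π : K₀) * c j),
          mul_assoc, inv_mul_cancel_left₀ hπ0, mul_comm] at h1
    choose b hb using fun j => exists_pow_mul_mem hquot hπ (c j)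
    apply key (∑ j, b j)
    intro j
    have hle : b j ≤ ∑ i, b i := Finset.single_le_sum (fun _ _ => Nat.zero_le _) (Finset.mem_univ j)
    obtain ⟨d, hd⟩ := Nat.exists_eq_add_of_le hle
    rw [hd, add_comm, pow_add, mul_assoc]
    exact mul_mem (pow_mem (unif_mem π) d) (hb j)
  · intro hc
    unfold comb
    exact sum_mem fun j _ => mul_mem
      (algebraMap_mem_gauss A (laurentBaseChange Qbar F₀) ⟨ω j, h.mem j⟩) (toBar_mem_gauss (hc j))

/-- `f = 1`: the Gauss rings of `F_{ℚ̄}` and of `F_{K₀}` have the same residue field. -/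
theorem exists_rho_eq [IsDiscreteValuationRing (restrict A K₀)]
    (hquot : IsQuot (restrict A K₀) (laurentBaseChange K₀ F₀))
    {q : ℕ} (hq : q.Prime) (hA : A.LiesOverPrime q) (hB : GoodBase A K₀)
    (y : gaussSubring A (laurentBaseChange Qbar F₀)) :
    ∃ y₀ : gaussSubring (restrict A K₀) (laurentBaseChange K₀ F₀),
      rho A (laurentBaseChange Qbar F₀) y =
        coeffMap (residueMap A K₀) (rho (restrict A K₀) (laurentBaseChange K₀ F₀) y₀) := by
  obtain ⟨e, ω, hω, hS⟩ := exists_comb hB {(y : laurentBaseChange Qbar F₀)}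
  obtain ⟨c, hc⟩ := hS y (Finset.mem_singleton_self _)
  have hmem : comb K₀ F₀ ω c ∈ gaussSubring A (laurentBaseChange Qbar F₀) := hc ▸ y.2
  have hcj := (comb_mem_gauss_iff hquot hq hA hω c).mp hmem
  have hy : y = ⟨comb K₀ F₀ ω c, hmem⟩ := Subtype.ext hc
  choose a ha using fun j => hB.surj (ω j) (hω.mem j)
  have haA : ∀ j, ((a j : K₀) : Qbar) ∈ A := fun j => by
    have h1 : ((a j : K₀) : Qbar) = ω j - (ω j - (a j : Qbar)) := by ring
    rw [h1]
    exact A.sub_mem (hω.mem j) (A.nonunits_subset (ha j))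
  let a₀ : Fin e → restrict A K₀ := fun j => ⟨a j, haA j⟩
  have hres : ∀ j, IsLocalRing.residue A ⟨ω j, hω.mem j⟩ =
      residueMap A K₀ (IsLocalRing.residue (restrict A K₀) (a₀ j)) := fun j => by
    change _ = IsLocalRing.residue A (restrictHom A K₀ (a₀ j))
    rw [← sub_eq_zero, ← map_sub, IsLocalRing.residue_eq_zero_iff,
      ← ValuationSubring.coe_mem_nonunits_iff]
    exact ha j
  refine ⟨∑ j, ⟨algebraMap K₀ (laurentBaseChange K₀ F₀) (a j),
    algebraMap_mem_gauss (restrict A K₀) (laurentBaseChange K₀ F₀) (a₀ j)⟩ * ⟨c j, hcj j⟩, ?_⟩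
  rw [hy, rho_comb hω c hcj hmem, map_sum, map_sum]
  refine Finset.sum_congr rfl fun j _ => ?_
  rw [map_mul, map_mul, hres j]
  congr 1
  have h2 := rho_algebraMap (restrict A K₀) (laurentBaseChange K₀ F₀) (a₀ j)
  change _ = coeffMap (residueMap A K₀) (rho (restrict A K₀) (laurentBaseChange K₀ F₀)
    ⟨algebraMap K₀ (laurentBaseChange K₀ F₀) ((a₀ j : restrict A K₀) : K₀), _⟩)
  rw [h2, algebraMap_laurentSeries_eq_single, algebraMap_laurentSeries_eq_single, coeffMap_single]

end Fermat.Agent.Lib.UrBase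

end
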