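/-
Block UR, node UR-1: the inertia field is a good base.
-/
import Fermat.Agent.Lib.UrBase.Good
import Fermat.Agent.Lib.InertiaField.Unram
import Fermat.Agent.Lib.InertiaField.Integral
import Fermat.Agent.Lib.InertiaField.Residue

set_option autoImplicit false

noncomputable section

namespace Fermat.Agent.Lib.UrBase

open ModularCurve Fermat.Agent.S18.Descent

local notation "Qbar" => AlgebraicClosure ℚ

variable {A : ValuationSubring Qbar} {K₀ : IntermediateField ℚ Qbar}

/-- An integral basis: over a principal ideal domain `R` with fraction field `K`, a finite separable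
extension `L` of `K` has a `K`-basis consisting of integral elements such that the integral elements
are exactly the combinations with coefficients in `R`. -/
theorem Inertia.exists_integral_basis (R K L : Type*) [CommRing R] [IsDomain R]
    [IsPrincipalIdealRing R] [Field K] [Algebra R K] [IsFractionRing R K] [Field L] [Algebra K L]
    [Algebra R L] [IsScalarTower R K L] [FiniteDimensional K L] [Algebra.IsSeparable K L] :
    ∃ (e : ℕ) (b : Module.Basis (Fin e) K L), (∀ j, IsIntegral R (b j)) ∧
      ∀ x : L, IsIntegral R x → ∀ j, ∃ r : R, algebraMap R K r = b.repr x j := by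
  have : Module.IsTorsionFree R L := .trans_faithfulSMul R K L
  have hfree : Module.Free R (integralClosure R L) :=
    IsIntegralClosure.module_free R K L (integralClosure R L)
  have hfin : Module.Finite R (integralClosure R L) :=
    IsIntegralClosure.finite R K L (integralClosure R L)
  have hloc : IsLocalization (Algebra.algebraMapSubmonoid (integralClosure R L)
      (nonZeroDivisors R)) L := IsIntegralClosure.isLocalization R K L (integralClosure R L)
  let b0 := Module.finBasis R (integralClosure R L)
  refine ⟨_, b0.localizationLocalization K (nonZeroDivisors R) L, fun j => ?_, fun x hx j => ?_⟩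
  · rw [Module.Basis.localizationLocalization_apply]
    exact (b0 j).2
  · exact ⟨b0.repr ⟨x, hx⟩ j,
      (Module.Basis.localizationLocalization_repr_algebraMap K (nonZeroDivisors R) L b0
        ⟨x, hx⟩ j).symm⟩

/-- the inclusion `A0 A → A`. -/
def Inertia.incl (A : ValuationSubring Qbar) : InertiaField.A0 A →+* A :=
  ((algebraMap (InertiaField.K0 A) Qbar).comp (InertiaField.A0 A).subtype).codRestrict A.toSubring
    (fun x => x.2)

/-- an element which is a root of a monic polynomial over `A0 A` lies in `A`. -/
theorem Inertia.mem_of_eval₂ (A : ValuationSubring Qbar) {x : Qbar}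
    {p : Polynomial (InertiaField.A0 A)} (hp : p.Monic)
    (h : p.eval₂ ((algebraMap (InertiaField.K0 A) Qbar).comp (InertiaField.A0 A).subtype) x = 0) :
    x ∈ A := by
  have hint : IsIntegral A x := by
    refine ⟨p.map (Inertia.incl A), hp.map _, ?_⟩
    rw [Polynomial.eval₂_map]
    exact h
  obtain ⟨y, hy⟩ := IsIntegrallyClosed.isIntegral_iff.mp hint
  exact hy ▸ y.2

/-- every element of `A` is a root of a monic polynomial over `A0 A`. -/
theorem Inertia.exists_eval₂ (A : ValuationSubring Qbar) {x : Qbar} (hx : x ∈ A) :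
    ∃ p : Polynomial (InertiaField.A0 A), p.Monic ∧
      p.eval₂ ((algebraMap (InertiaField.K0 A) Qbar).comp (InertiaField.A0 A).subtype) x = 0 := by
  obtain ⟨f, hf, hc, h0⟩ := InertiaField.exists_monic_of_mem A hx
  have hl : f ∈ Polynomial.lifts
      ((algebraMap (InertiaField.K0 A) Qbar).comp (InertiaField.A0 A).subtype) := by
    rw [Polynomial.lifts_iff_coeff_lifts]
    intro n
    exact ⟨⟨⟨f.coeff n, (hc n).1⟩, (hc n).2⟩, rfl⟩
  obtain ⟨p, hp, -, hpm⟩ := Polynomial.lifts_and_natDegree_eq_and_monic hl hf
  refine ⟨p, hpm, ?_⟩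
  rw [← Polynomial.eval_map, hp]
  exact h0

theorem goodBase_inertia {q : ℕ} (hq : q.Prime) (hA : A.LiesOverPrime q) :
    GoodBase A (InertiaField.K0 A) := by
  refine ⟨fun S => ?_, fun a ha => ?_⟩
  swap
  · obtain ⟨b, hb, -, h⟩ := InertiaField.exists_mem_K0_sub_mem A q hq hA ha
    exact ⟨⟨b, hb⟩, h⟩
  have hdvr := InertiaField.isDiscreteValuationRing_A0 A q hq hA
  have hQ := Fermat.Agent.Lib.Frobenius.isIntegral_rat
  have halg : ∀ x : Qbar, IsIntegral (InertiaField.K0 A) x := fun x =>
    (Algebra.IsIntegral.isIntegral (R := ℚ) x).tower_top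
  let K1 : IntermediateField (InertiaField.K0 A) Qbar :=
    IntermediateField.adjoin (InertiaField.K0 A) (S : Set Qbar)
  have hfd : FiniteDimensional (InertiaField.K0 A) K1 :=
    IntermediateField.finiteDimensional_adjoin fun x _ => halg x
  let _ : Algebra (InertiaField.A0 A) K1 :=
    ((algebraMap (InertiaField.K0 A) K1).comp (InertiaField.A0 A).subtype).toAlgebra
  have : IsScalarTower (InertiaField.A0 A) (InertiaField.K0 A) K1 :=
    IsScalarTower.of_algebraMap_eq fun _ => rfl
  obtain ⟨e, b, hbint, hbrepr⟩ :=
    Inertia.exists_integral_basis (InertiaField.A0 A) (InertiaField.K0 A) K1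
  -- integrality over `A0 A` versus membership in `A`
  have hI1 : ∀ x : K1, IsIntegral (InertiaField.A0 A) x → (x : Qbar) ∈ A := by
    rintro x ⟨p, hp, h⟩
    refine Inertia.mem_of_eval₂ A hp ?_
    have := congrArg (algebraMap K1 Qbar) h
    rw [Polynomial.hom_eval₂, map_zero] at this
    exact this
  have hI2 : ∀ x : K1, (x : Qbar) ∈ A → IsIntegral (InertiaField.A0 A) x := by
    intro x hx
    obtain ⟨p, hp, h⟩ := Inertia.exists_eval₂ A hx
    refine ⟨p, hp, (algebraMap K1 Qbar).injective ?_⟩
    rw [Polynomial.hom_eval₂, map_zero]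
    exact h
  have hsum : ∀ c : Fin e → InertiaField.K0 A,
      ∑ j, (c j : Qbar) * ((b j : K1) : Qbar) = ((∑ j, c j • b j : K1) : Qbar) := by
    intro c
    rw [← IntermediateField.algebraMap_apply, map_sum]
    rfl
  refine ⟨e, fun j => ((b j : K1) : Qbar), fun c => ?_, fun s hs => ?_⟩
  · rw [hsum c]
    constructor
    · intro h j
      obtain ⟨r, hr⟩ := hbrepr _ (hI2 _ h) j
      rw [Module.Basis.repr_sum_self] at hr
      rw [← hr]
      exact r.2
    · intro h
      rw [← hsum c]
      exact A.toSubring.sum_mem fun j _ => A.mul_mem _ _ (h j) (hI1 _ (hbint j))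
  · have hsK : s ∈ K1 := IntermediateField.subset_adjoin _ _ (Finset.mem_coe.mpr hs)
    refine ⟨fun j => b.repr ⟨s, hsK⟩ j, ?_⟩
    rw [hsum, b.sum_repr]

end Fermat.Agent.Lib.UrBase

end
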