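/-
Block UR (owner helper248), node UR-6 (helper151): a `K₀`-linearly independent combination
`∑ ω_j · toBar (c_j)` is integral over `ℚ̄[toBar X]` iff every `c_j` is integral over `K₀[X]`.

The proof is abstract: the dual family for the trace form of `K₀(ω) / K₀` expresses each
`toBar (c_j)` as a `ℚ̄`-combination of Galois conjugates of the combination, and integrality
descends along the (integral) extension `K₀[X] → ℚ̄[toBar X]`.
-/
import Fermat.Agent.Lib.UrBase.Good

set_option autoImplicit false
set_option linter.style.haveILetI false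

noncomputable section

namespace Fermat.Agent.Lib.UrBase

open ModularCurve Fermat.Agent.S18.Descent

local notation "Qbar" => AlgebraicClosure ℚ

section Abs

variable {k K F₁ F : Type*} [Field k] [Field K] [Field F₁] [Field F] [Algebra k F₁]
  [Algebra K F] [Algebra k K]

/-- The dual family with respect to the trace form, spread out over automorphisms of `K`. -/
theorem integral_exists_dual [CharZero k] [IsAlgClosed K] [Algebra.IsAlgebraic k K] {e : ℕ}
    {ω : Fin e → K} (hω : LinearIndependent k ω) :
    ∃ (t : Finset (K →ₐ[k] K)) (β : Fin e → K),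
      ∀ j l, ∑ s ∈ t, s (β j) * s (ω l) = if j = l then 1 else 0 := by
  classical
  let K1 : IntermediateField k K := IntermediateField.adjoin k (Set.range ω)
  haveI : FiniteDimensional k K1 :=
    IntermediateField.finiteDimensional_adjoin
      (fun x _ => (Algebra.IsAlgebraic.isAlgebraic x).isIntegral)
  let ω' : Fin e → K1 := fun j => ⟨ω j, IntermediateField.subset_adjoin k _ ⟨j, rfl⟩⟩
  have hω' : LinearIndependent k ω' := by
    refine LinearIndependent.of_comp K1.val.toLinearMap ?_
    exact hω
  -- functionals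
  have hfun : ∀ j, ∃ lam : K1 →ₗ[k] k, ∀ l, lam (ω' l) = if j = l then 1 else 0 := by
    intro j
    obtain ⟨g, hg⟩ := LinearMap.exists_extend ((Finsupp.lapply j).comp hω'.repr)
    refine ⟨g, fun l => ?_⟩
    have h1 := LinearMap.congr_fun hg ⟨ω' l, Submodule.subset_span ⟨l, rfl⟩⟩
    have h2 : hω'.repr ⟨ω' l, Submodule.subset_span ⟨l, rfl⟩⟩ = Finsupp.single l 1 :=
      hω'.repr_eq_single l _ rfl
    simp only [LinearMap.comp_apply, Submodule.subtype_apply, h2, Finsupp.lapply_apply] at h1
    rw [h1, Finsupp.single_apply]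
    simp [eq_comm]
  choose lam hlam using hfun
  let β' : Fin e → K1 := fun j =>
    ((Algebra.traceForm k K1).toDual (traceForm_nondegenerate k K1)).symm (lam j)
  have hβ' : ∀ j l, Algebra.trace k K1 (β' j * ω' l) = if j = l then 1 else 0 := by
    intro j l
    rw [← hlam j l, ← Algebra.traceForm_apply]
    exact LinearMap.BilinForm.apply_toDual_symm_apply _ _
  -- extension of embeddings
  have hext : ∀ σ : K1 →ₐ[k] K, ∃ s : K →ₐ[k] K, s.comp K1.val = σ := by
    intro σ
    exact IntermediateField.exists_algHom_of_splits'  σ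
      (fun x => ⟨(Algebra.IsAlgebraic.isAlgebraic x).isIntegral, IsAlgClosed.splits _⟩)
  choose ext hext using hext
  have hinj : Function.Injective ext := by
    intro σ τ h
    rw [← hext σ, ← hext τ, h]
  refine ⟨Finset.univ.image ext, fun j => (β' j : K), fun j l => ?_⟩
  rw [Finset.sum_image (fun a _ b _ h => hinj h)]
  have h1 := trace_eq_sum_embeddings K (K := k) (L := K1) (x := β' j * ω' l)
  rw [hβ' j l] at h1
  have h2 : ∀ σ : K1 →ₐ[k] K, ext σ (β' j : K) * ext σ (ω l) = σ (β' j * ω' l) := by
    intro σ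
    rw [map_mul]
    congr 1
    · exact AlgHom.congr_fun (hext σ) (β' j)
    · exact AlgHom.congr_fun (hext σ) (ω' l)
  rw [Finset.sum_congr rfl fun σ _ => h2 σ, ← h1]
  split_ifs <;> simp

variable (ι : F₁ →+* F)
  (hι : ∀ c : k, ι (algebraMap k F₁ c) = algebraMap K F (algebraMap k K c))

include hι in
theorem integral_map_mem_adjoin (X : Set F₁) {y : F₁} (hy : y ∈ Algebra.adjoin k X) :
    ι y ∈ Algebra.adjoin K (ι '' X) := by
  induction hy using Algebra.adjoin_induction with
  | mem x hx => exact Algebra.subset_adjoin ⟨x, hx, rfl⟩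
  | algebraMap r => rw [hι]; exact Subalgebra.algebraMap_mem _ _
  | add x y _ _ hx hy => rw [map_add]; exact add_mem hx hy
  | mul x y _ _ hx hy => rw [map_mul]; exact mul_mem hx hy

include hι in
theorem integral_map_isIntegral (X : Set F₁) {z : F₁} (hz : IsIntegral (Algebra.adjoin k X) z) :
    IsIntegral (Algebra.adjoin K (ι '' X)) (ι z) := by
  let φ : Algebra.adjoin k X →+* Algebra.adjoin K (ι '' X) :=
    (ι.comp (Algebra.adjoin k X).val.toRingHom).codRestrict (Algebra.adjoin K (ι '' X))
      (fun y => integral_map_mem_adjoin ι hι X y.2)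
  exact IsIntegral.map_of_comp_eq φ ι (by ext; rfl) hz

include hι in
theorem integral_descent [Algebra.IsAlgebraic k K] (X : Set F₁) {z : F₁}
    (hz : IsIntegral (Algebra.adjoin K (ι '' X)) (ι z)) : IsIntegral (Algebra.adjoin k X) z := by
  set R₀ := Algebra.adjoin k X with hR₀
  set R := Algebra.adjoin K (ι '' X) with hR
  let φ : R₀ →+* R := (ι.comp R₀.val.toRingHom).codRestrict R
      (fun y => integral_map_mem_adjoin ι hι X y.2)
  letI : Algebra R₀ R := φ.toAlgebra
  letI : Algebra R₀ F := (ι.comp R₀.val.toRingHom).toAlgebra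
  haveI : IsScalarTower R₀ R F := IsScalarTower.of_algebraMap_eq (fun y => rfl)
  have hconst : ∀ c : K, IsIntegral R₀ (algebraMap K F c) := by
    intro c
    have hc : IsIntegral k c := (Algebra.IsAlgebraic.isAlgebraic c).isIntegral
    exact IsIntegral.map_of_comp_eq (algebraMap k R₀) (algebraMap K F) (by
      ext a
      exact hι a) hc
  haveI : Algebra.IsIntegral R₀ R := by
    refine ⟨fun y => ?_⟩
    rw [← isIntegral_algebraMap_iff (B := F) (Subtype.val_injective)]
    change IsIntegral R₀ (y : F)
    obtain ⟨y, hy⟩ := y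
    change IsIntegral R₀ y
    induction hy using Algebra.adjoin_induction with
    | mem x hx =>
      obtain ⟨x', hx', rfl⟩ := hx
      exact isIntegral_algebraMap (R := R₀) (A := F) (x := ⟨x', Algebra.subset_adjoin hx'⟩)
    | algebraMap r => exact hconst r
    | add x y _ _ hx hy => exact hx.add hy
    | mul x y _ _ hx hy => exact hx.mul hy
  have h1 : IsIntegral R₀ (ι z) := isIntegral_trans (A := R) (ι z) hz
  let ιa : F₁ →ₐ[R₀] F := { ι with commutes' := fun y => rfl }
  exact (isIntegral_algHom_iff ιa ι.injective).1 h1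

theorem integral_conj (X : Set F₁) (T : F →+* F) (s : K →+* K) (hT : ∀ z, T (ι z) = ι z)
    (hTs : ∀ a, T (algebraMap K F a) = algebraMap K F (s a)) {y : F}
    (hy : IsIntegral (Algebra.adjoin K (ι '' X)) y) :
    IsIntegral (Algebra.adjoin K (ι '' X)) (T y) := by
  have hmem : ∀ y ∈ Algebra.adjoin K (ι '' X), T y ∈ Algebra.adjoin K (ι '' X) := by
    intro y hy
    induction hy using Algebra.adjoin_induction with
    | mem x hx =>
      obtain ⟨x', hx', rfl⟩ := hx
      rw [hT]
      exact Algebra.subset_adjoin ⟨x', hx', rfl⟩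
    | algebraMap r => rw [hTs]; exact Subalgebra.algebraMap_mem _ _
    | add x y _ _ hx hy => rw [map_add]; exact add_mem hx hy
    | mul x y _ _ hx hy => rw [map_mul]; exact mul_mem hx hy
  let φ : Algebra.adjoin K (ι '' X) →+* Algebra.adjoin K (ι '' X) :=
    (T.comp (Algebra.adjoin K (ι '' X)).val.toRingHom).codRestrict (Algebra.adjoin K (ι '' X))
      (fun y => hmem y y.2)
  exact IsIntegral.map_of_comp_eq φ T (by ext; rfl) hy

theorem integral_const (Y : Set F) (a : K) :
    IsIntegral (Algebra.adjoin K Y) (algebraMap K F a) :=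
  isIntegral_algebraMap (R := Algebra.adjoin K Y) (A := F)
    (x := ⟨algebraMap K F a, Subalgebra.algebraMap_mem _ _⟩)

include hι in
/-- The abstract form of `isIntegral_comb_iff`. -/
theorem integral_comb_iff_abs [CharZero k] [IsAlgClosed K] [Algebra.IsAlgebraic k K] {e : ℕ}
    {ω : Fin e → K} (hω : LinearIndependent k ω) (T : (K →ₐ[k] K) → F →+* F)
    (hT : ∀ s z, T s (ι z) = ι z) (hTs : ∀ s a, T s (algebraMap K F a) = algebraMap K F (s a))
    (X : Set F₁) (c : Fin e → F₁) :
    IsIntegral (Algebra.adjoin K (ι '' X)) (∑ j, algebraMap K F (ω j) * ι (c j)) ↔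
      ∀ j, IsIntegral (Algebra.adjoin k X) (c j) := by
  classical
  constructor
  · intro h j
    apply integral_descent ι hι X
    obtain ⟨t, β, hβ⟩ := integral_exists_dual hω
    have key : ι (c j) = ∑ s ∈ t, algebraMap K F (s (β j)) *
        T s (∑ l, algebraMap K F (ω l) * ι (c l)) := by
      have h1 : ∀ s ∈ t, algebraMap K F (s (β j)) * T s (∑ l, algebraMap K F (ω l) * ι (c l)) =
          ∑ l, algebraMap K F (s (β j) * s (ω l)) * ι (c l) := by
        intro s _
        rw [map_sum, Finset.mul_sum]
        refine Finset.sum_congr rfl fun l _ => ?_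
        rw [map_mul, hT, hTs, map_mul, mul_assoc]
      rw [Finset.sum_congr rfl h1, Finset.sum_comm]
      have h2 : ∀ l, ∑ s ∈ t, algebraMap K F (s (β j) * s (ω l)) * ι (c l) =
          if j = l then ι (c l) else 0 := by
        intro l
        rw [← Finset.sum_mul, ← map_sum, hβ j l]
        split_ifs <;> simp
      rw [Finset.sum_congr rfl fun l _ => h2 l]
      simp
    rw [key]
    refine IsIntegral.sum _ fun s _ => ?_
    exact (integral_const _ _).mul (integral_conj ι X (T s) s (hT s) (hTs s) h)
  · intro h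
    refine IsIntegral.sum _ fun j _ => ?_
    exact (integral_const _ _).mul (integral_map_isIntegral ι hι X (h j))

end Abs

variable {A : ValuationSubring Qbar} {K₀ : IntermediateField ℚ Qbar}
variable {F₀ : IntermediateField ℚ (LaurentSeries ℚ)}
variable {e : ℕ} {ω : Fin e → Qbar}

theorem isIntegral_comb_iff (hω : LinearIndependent K₀ ω) (X : Set (laurentBaseChange K₀ F₀))
    (c : Fin e → laurentBaseChange K₀ F₀) :
    IsIntegral (Algebra.adjoin Qbar (toBar F₀ K₀ '' X)) (comb K₀ F₀ ω c) ↔
      ∀ j, IsIntegral (Algebra.adjoin K₀ X) (c j) := by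
  refine integral_comb_iff_abs (toBar F₀ K₀) (toBar_algebraMap F₀ K₀) hω
    (fun s => baseChangeMap F₀ (s : Qbar →+* Qbar)) ?_ ?_ X c
  · intro s z
    apply Subtype.ext
    rw [coe_baseChangeMap, coe_baseChangeMap, coeffMap_coeffMap]
    exact coeffMap_congr (RingHom.ext fun a => s.commutes a) _
  · intro s a
    exact baseChangeMap_algebraMap _ a

end Fermat.Agent.Lib.UrBase

end
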